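import Mathlib
import Fermat.Prelude.Def_AlgebraicCurve_Correspondence

/-!
# ESJ / LevelDesc — base change for divisors along a commutative square of function fields

Abstract part of the level descent `N * aux → N` (used for `ℓ = 2, 3`).

* `restrictAlong_comp`, `ramificationIndexAlong_comp`, `pullbackAlong_comp`: functoriality of
  restriction of places / ramification indices / pull-back of divisors along a composite
  embedding.
* `norm_map_of_coprime`: for a tower `F₀ ⊆ F₁ ⊆ F₃` and an `F₀`-embedding `g : F₂ → F₃` with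
  `[F₃ : F₁] = [F₂ : F₀]` coprime to `[F₁ : F₀]`: `N_{F₃/F₁}(g f) = N_{F₂/F₀}(f)`.
* `pullbackAlong_pushforwardAlong`: the BASE-CHANGE identity
  `a^* ∘ α_* = α'_* ∘ a'^*` on divisors for a commutative square `α' ∘ a = a' ∘ α`, from the
  norm formulas, the norm compatibility and weak approximation (a `δ`-argument; no local
  analysis of the fibre product).
* `pullbackAlong_correspondence`: hence `a^* ∘ (α_* β^*) = (α'_* β'^*) ∘ a^*`.
-/

set_option autoImplicit false
set_option linter.style.haveILetI false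

noncomputable section

namespace Fermat.Agent.ESJ.LevelDesc

open AlgebraicCurve

section Functoriality

variable {K F F' F'' : Type*} [Field K] [Field F] [Field F'] [Field F'']
  [Algebra K F] [Algebra K F'] [Algebra K F'']

theorem mem_restrictAlong_iff (φ : F →ₐ[K] F') (hφ : φ.toRingHom.IsIntegral)
    (w : Place K F') (x : F) :
    x ∈ (w.restrictAlong φ hφ).toValuationSubring ↔ φ x ∈ w.toValuationSubring :=
  Iff.rfl

/-- Restriction of places is functorial. -/
theorem restrictAlong_comp (φ : F →ₐ[K] F') (ψ : F' →ₐ[K] F'')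
    (hφ : φ.toRingHom.IsIntegral) (hψ : ψ.toRingHom.IsIntegral)
    (hχ : (ψ.comp φ).toRingHom.IsIntegral) (W : Place K F'') :
    W.restrictAlong (ψ.comp φ) hχ = (W.restrictAlong ψ hψ).restrictAlong φ hφ := by
  apply Place.ext
  ext x
  rw [mem_restrictAlong_iff, mem_restrictAlong_iff, mem_restrictAlong_iff]
  rfl

theorem ramificationIndexAlong_pos (φ : F →ₐ[K] F') (hφ : φ.toRingHom.IsIntegral)
    (w : Place K F') : 0 < w.ramificationIndexAlong φ := by
  letI := algebraAlong φ
  haveI := isScalarTower_along φ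
  haveI := isIntegral_along φ hφ
  exact w.ramificationIndex_pos (F := F)

theorem exists_ord_eq_ramificationIndexAlong (φ : F →ₐ[K] F') (hφ : φ.toRingHom.IsIntegral)
    (w : Place K F') : ∃ f : F, f ≠ 0 ∧ w.ord (φ f) = w.ramificationIndexAlong φ := by
  letI := algebraAlong φ
  haveI := isScalarTower_along φ
  haveI := isIntegral_along φ hφ
  exact w.exists_ord_eq_ramificationIndex (F := F)

/-- Ramification indices are multiplicative in towers. -/
theorem ramificationIndexAlong_comp (φ : F →ₐ[K] F') (ψ : F' →ₐ[K] F'')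
    (hφ : φ.toRingHom.IsIntegral) (hψ : ψ.toRingHom.IsIntegral)
    (hχ : (ψ.comp φ).toRingHom.IsIntegral) (W : Place K F'') :
    W.ramificationIndexAlong (ψ.comp φ)
      = W.ramificationIndexAlong ψ * (W.restrictAlong ψ hψ).ramificationIndexAlong φ := by
  obtain ⟨f, -, hf⟩ := exists_ord_eq_ramificationIndexAlong (ψ.comp φ) hχ W
  have hpos := ramificationIndexAlong_pos (ψ.comp φ) hχ W
  have h1 := Place.ord_restrictAlong (ψ.comp φ) hχ W f
  have h2 := Place.ord_restrictAlong ψ hψ W (φ f)
  have h3 := Place.ord_restrictAlong φ hφ (W.restrictAlong ψ hψ) f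
  rw [← restrictAlong_comp φ ψ hφ hψ hχ W] at h3
  have h4 : (ψ.comp φ) f = ψ (φ f) := rfl
  rw [h4] at h1 hf
  have hepos : (0 : ℤ) < (W.ramificationIndexAlong (ψ.comp φ) : ℤ) := by exact_mod_cast hpos
  have ho1 : (W.restrictAlong (ψ.comp φ) hχ).ord f = 1 := by
    have : (W.ramificationIndexAlong (ψ.comp φ) : ℤ) * (W.restrictAlong (ψ.comp φ) hχ).ord f
        = (W.ramificationIndexAlong (ψ.comp φ) : ℤ) * 1 := by rw [mul_one, ← h1, hf]
    exact mul_left_cancel₀ hepos.ne' this
  have key : (W.ramificationIndexAlong (ψ.comp φ) : ℤ) = (W.ramificationIndexAlong ψ : ℤ)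
      * ((W.restrictAlong ψ hψ).ramificationIndexAlong φ : ℤ) := by
    rw [← hf, h2, h3, ho1, mul_one]
  exact_mod_cast key

variable [HasPrincipalDivisors K F'] [HasPrincipalDivisors K F'']

/-- Pull-back of divisors is functorial. -/
theorem pullbackAlong_comp (φ : F →ₐ[K] F') (ψ : F' →ₐ[K] F'')
    (hφ : φ.toRingHom.IsIntegral) (hψ : ψ.toRingHom.IsIntegral)
    (hχ : (ψ.comp φ).toRingHom.IsIntegral) (D : Divisor K F) :
    Divisor.pullbackAlong (ψ.comp φ) hχ D
      = Divisor.pullbackAlong ψ hψ (Divisor.pullbackAlong φ hφ D) := by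
  ext W
  rw [Divisor.pullbackAlong_apply, Divisor.pullbackAlong_apply, Divisor.pullbackAlong_apply,
    restrictAlong_comp φ ψ hφ hψ hχ W, ramificationIndexAlong_comp φ ψ hφ hψ hχ W]
  push_cast
  ring

omit [HasPrincipalDivisors K F'] in
theorem pullbackAlong_congr {χ χ' : F →ₐ[K] F''} (h : χ = χ')
    (hχ : χ.toRingHom.IsIntegral) (hχ' : χ'.toRingHom.IsIntegral) (D : Divisor K F) :
    Divisor.pullbackAlong χ hχ D = Divisor.pullbackAlong χ' hχ' D := by
  subst h
  rfl

end Functoriality

section Norm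

variable {F₀ F₁ F₂ F₃ : Type*} [Field F₀] [Field F₁] [Field F₂] [Field F₃]
  [Algebra F₀ F₁] [Algebra F₀ F₂] [Algebra F₀ F₃] [Algebra F₁ F₃] [IsScalarTower F₀ F₁ F₃]

/-- **Norm and base change**, basis form.  `F₀ ⊆ F₁ ⊆ F₃` a tower, `g : F₂ → F₃` an
`F₀`-embedding, `b` an `F₀`-basis of `F₂` whose image is `F₁`-linearly independent, and
`[F₃ : F₁] = [F₂ : F₀]`.  Then `N_{F₃/F₁}(g f) = N_{F₂/F₀}(f)`. -/
theorem norm_map_of_linearIndependent (g : F₂ →ₐ[F₀] F₃) {n : ℕ}
    (b : Module.Basis (Fin n) F₀ F₂) (hli : LinearIndependent F₁ (fun i => g (b i)))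
    (hdeg : Module.finrank F₁ F₃ = n) (f : F₂) :
    Algebra.norm F₁ (g f) = algebraMap F₀ F₁ (Algebra.norm F₀ f) := by
  classical
  haveI : Nonempty (Fin n) := b.index_nonempty
  have hcard : Fintype.card (Fin n) = Module.finrank F₁ F₃ := by
    rw [Fintype.card_fin, hdeg]
  let b' : Module.Basis (Fin n) F₁ F₃ := basisOfLinearIndependentOfCardEqFinrank hli hcard
  have hb' : ∀ i, b' i = g (b i) := fun i => by
    rw [coe_basisOfLinearIndependentOfCardEqFinrank]
  rw [Algebra.norm_eq_matrix_det b' (g f), Algebra.norm_eq_matrix_det b f, RingHom.map_det]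
  congr 1
  ext i j
  rw [Algebra.leftMulMatrix_eq_repr_mul, RingHom.mapMatrix_apply, Matrix.map_apply,
    Algebra.leftMulMatrix_eq_repr_mul]
  have hsum : g f * b' j = ∑ i, (algebraMap F₀ F₁ (b.repr (f * b j) i)) • b' i := by
    rw [hb', ← map_mul]
    conv_lhs => rw [← b.sum_repr (f * b j)]
    rw [map_sum]
    refine Finset.sum_congr rfl fun i _ => ?_
    rw [map_smul, hb', algebraMap_smul]
  rw [hsum, b'.repr_sum_self]

/-- **Norm and base change**, coprime degrees: `[F₃ : F₁] = [F₂ : F₀]` coprime to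
`[F₁ : F₀]`. -/
theorem norm_map_of_coprime (g : F₂ →ₐ[F₀] F₃) [FiniteDimensional F₀ F₂]
    (hdeg : Module.finrank F₁ F₃ = Module.finrank F₀ F₂)
    (hcop : (Module.finrank F₀ F₂).Coprime (Module.finrank F₀ F₁)) (f : F₂) :
    Algebra.norm F₁ (g f) = algebraMap F₀ F₁ (Algebra.norm F₀ f) := by
  classical
  set A : IntermediateField F₀ F₃ := g.fieldRange with hA
  let e : F₂ ≃ₐ[F₀] A := AlgEquiv.ofInjectiveField g
  have hfr : Module.finrank F₀ A = Module.finrank F₀ F₂ := e.toLinearEquiv.finrank_eq.symm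
  have H : A.LinearDisjoint F₁ :=
    IntermediateField.LinearDisjoint.of_finrank_coprime (by rwa [hfr])
  let b : Module.Basis (Fin (Module.finrank F₀ F₂)) F₀ F₂ := Module.finBasis F₀ F₂
  have ha : LinearIndependent F₀ (fun i => e (b i)) :=
    b.linearIndependent.map' e.toLinearMap (LinearMap.ker_eq_bot.mpr e.injective)
  have hli : LinearIndependent F₁ (fun i => g (b i)) := H.linearIndependent_left ha
  exact norm_map_of_linearIndependent g b hli hdeg f

/-- **Norm and base change**, primitive element form: `F₂ = F₀(t)`, `F₃ = F₁(g t)` and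
`[F₃ : F₁] = [F₂ : F₀]`. -/
theorem norm_map_of_adjoin_eq_top (g : F₂ →ₐ[F₀] F₃) [FiniteDimensional F₀ F₂] (t : F₂)
    (ht : IntermediateField.adjoin F₀ {t} = ⊤) (ht' : IntermediateField.adjoin F₁ {g t} = ⊤)
    (hdeg : Module.finrank F₁ F₃ = Module.finrank F₀ F₂) (f : F₂) :
    Algebra.norm F₁ (g f) = algebraMap F₀ F₁ (Algebra.norm F₀ f) := by
  classical
  have hint : IsIntegral F₀ t := IsIntegral.of_finite F₀ t
  have hn : Module.finrank F₀ F₂ = (minpoly F₀ t).natDegree := by
    rw [← IntermediateField.adjoin.finrank hint, ht, IntermediateField.finrank_top']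
  have hpos : 0 < Module.finrank F₀ F₂ := Module.finrank_pos
  haveI : FiniteDimensional F₁ F₃ := Module.finite_of_finrank_pos (by rw [hdeg]; exact hpos)
  have hint' : IsIntegral F₁ (g t) := IsIntegral.of_finite F₁ (g t)
  have hn' : Module.finrank F₁ F₃ = (minpoly F₁ (g t)).natDegree := by
    rw [← IntermediateField.adjoin.finrank hint', ht', IntermediateField.finrank_top']
  have hnn : (minpoly F₀ t).natDegree = (minpoly F₁ (g t)).natDegree := by
    rw [← hn, ← hn', hdeg]
  haveI : Nonempty (Fin (minpoly F₀ t).natDegree) :=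
    ⟨⟨0, by rw [← hn]; exact hpos⟩⟩
  let b : Module.Basis (Fin (minpoly F₀ t).natDegree) F₀ F₂ :=
    basisOfLinearIndependentOfCardEqFinrank (linearIndependent_pow t)
      (by rw [Fintype.card_fin, hn])
  have hb : ∀ i, b i = t ^ (i : ℕ) := fun i => by
    rw [coe_basisOfLinearIndependentOfCardEqFinrank]
  have hli : LinearIndependent F₁ (fun i => g (b i)) := by
    have h1 := linearIndependent_pow (K := F₁) (g t)
    have h2 := h1.comp (Fin.cast hnn) (Fin.cast_injective hnn)
    have h3 : (fun i => g (b i)) = (fun i : Fin (minpoly F₁ (g t)).natDegree => g t ^ (i : ℕ))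
        ∘ Fin.cast hnn := by
      funext i
      rw [hb, map_pow]
      rfl
    rw [h3]
    exact h2
  exact norm_map_of_linearIndependent g b hli (by rw [hdeg, hn]) f

end Norm

section NormAlong

variable {K F₀ F₁ F₂ F₃ : Type*} [Field K] [Field F₀] [Field F₁] [Field F₂] [Field F₃]
  [Algebra K F₀] [Algebra K F₁] [Algebra K F₂] [Algebra K F₃]
  (a : F₀ →ₐ[K] F₁) (α : F₀ →ₐ[K] F₂) (α' : F₁ →ₐ[K] F₃) (a' : F₂ →ₐ[K] F₃)

/-- Norm compatibility for a commutative square `α' ∘ a = a' ∘ α` with
`[F₃ : α' F₁] = [F₂ : α F₀]` coprime to `[F₁ : a F₀]`. -/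
theorem norm_along_of_coprime (hsq : α'.comp a = a'.comp α) (hfin : FiniteAlong K α)
    (hdeg : finrankAlong K α' = finrankAlong K α)
    (hcop : (finrankAlong K α).Coprime (finrankAlong K a)) (f : F₂) :
    (letI := algebraAlong α'; Algebra.norm F₁ (a' f))
      = a (letI := algebraAlong α; Algebra.norm F₀ f) := by
  letI i01 : Algebra F₀ F₁ := algebraAlong a
  letI i02 : Algebra F₀ F₂ := algebraAlong α
  letI i13 : Algebra F₁ F₃ := algebraAlong α'
  letI i03 : Algebra F₀ F₃ := algebraAlong (α'.comp a)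
  haveI : IsScalarTower F₀ F₁ F₃ := IsScalarTower.of_algebraMap_eq (fun _ => rfl)
  haveI : FiniteDimensional F₀ F₂ := hfin
  let g : F₂ →ₐ[F₀] F₃ :=
    { a'.toRingHom with
      commutes' := fun r => (congrArg (fun h : F₀ →ₐ[K] F₃ => h r) hsq).symm }
  exact norm_map_of_coprime g hdeg hcop f

/-- Norm compatibility for a commutative square `α' ∘ a = a' ∘ α` with
`[F₃ : α' F₁] = [F₂ : α F₀]`, `F₂ = α F₀ (t)` and `F₃ = α' F₁ (a' t)`. -/
theorem norm_along_of_closure_eq_top (hsq : α'.comp a = a'.comp α) (hfin : FiniteAlong K α)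
    (hdeg : finrankAlong K α' = finrankAlong K α) (t : F₂)
    (ht : Subfield.closure (Set.range α ∪ {t}) = ⊤)
    (ht' : Subfield.closure (Set.range α' ∪ {a' t}) = ⊤) (f : F₂) :
    (letI := algebraAlong α'; Algebra.norm F₁ (a' f))
      = a (letI := algebraAlong α; Algebra.norm F₀ f) := by
  letI i01 : Algebra F₀ F₁ := algebraAlong a
  letI i02 : Algebra F₀ F₂ := algebraAlong α
  letI i13 : Algebra F₁ F₃ := algebraAlong α'
  letI i03 : Algebra F₀ F₃ := algebraAlong (α'.comp a)
  haveI : IsScalarTower F₀ F₁ F₃ := IsScalarTower.of_algebraMap_eq (fun _ => rfl)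
  haveI : FiniteDimensional F₀ F₂ := hfin
  let g : F₂ →ₐ[F₀] F₃ :=
    { a'.toRingHom with
      commutes' := fun r => (congrArg (fun h : F₀ →ₐ[K] F₃ => h r) hsq).symm }
  have h1 : IntermediateField.adjoin F₀ {t} = ⊤ := by
    apply IntermediateField.toSubfield_injective
    rw [IntermediateField.adjoin_toSubfield, IntermediateField.top_toSubfield]
    exact ht
  have h2 : IntermediateField.adjoin F₁ {g t} = ⊤ := by
    apply IntermediateField.toSubfield_injective
    rw [IntermediateField.adjoin_toSubfield, IntermediateField.top_toSubfield]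
    exact ht'
  exact norm_map_of_adjoin_eq_top g t h1 h2 hdeg f

end NormAlong

section BaseChange

variable {K F₀ F₁ F₂ F₃ : Type*} [Field K] [Field F₀] [Field F₁] [Field F₂] [Field F₃]
  [Algebra K F₀] [Algebra K F₁] [Algebra K F₂] [Algebra K F₃]

/-- The norm formula along `φ`, unfolded. -/
theorem pushforwardAlong_apply_of_normFormula {F F' : Type*} [Field F] [Field F']
    [Algebra K F] [Algebra K F'] (φ : F →ₐ[K] F') (hφ : φ.toRingHom.IsIntegral)
    (hfin : FiniteAlong K φ) (hN : NormFormulaAlong K φ hfin)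
    (f : F') (hf : f ≠ 0) (D : Divisor K F') (hD : ∀ w, D w = w.ord f) (v : Place K F) :
    Divisor.pushforwardAlong φ hφ D v
      = v.ord (letI := algebraAlong φ; Algebra.norm F f) := by
  letI := algebraAlong φ
  haveI := isScalarTower_along φ
  haveI : Module.Finite F F' := hfin
  exact hN f hf D hD v

variable [HasPrincipalDivisors K F₁] [HasPrincipalDivisors K F₂] [HasPrincipalDivisors K F₃]
  (a : F₀ →ₐ[K] F₁) (α : F₀ →ₐ[K] F₂) (α' : F₁ →ₐ[K] F₃) (a' : F₂ →ₐ[K] F₃)
  (ha : a.toRingHom.IsIntegral) (hα : α.toRingHom.IsIntegral)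
  (hα' : α'.toRingHom.IsIntegral) (ha' : a'.toRingHom.IsIntegral)

/-- The defect of base change `a^* α_* - α'_* a'^*`. -/
def delta : Divisor K F₂ →+ Divisor K F₁ :=
  (Divisor.pullbackAlong a ha).comp (Divisor.pushforwardAlong α hα)
    - (Divisor.pushforwardAlong α' hα').comp (Divisor.pullbackAlong a' ha')

omit [HasPrincipalDivisors K F₂] in
theorem delta_apply (D : Divisor K F₂) :
    delta a α α' a' ha hα hα' ha' D
      = Divisor.pullbackAlong a ha (Divisor.pushforwardAlong α hα D)
        - Divisor.pushforwardAlong α' hα' (Divisor.pullbackAlong a' ha' D) :=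
  rfl

omit [HasPrincipalDivisors K F₂] in
/-- The defect kills principal divisors. -/
theorem delta_principal
    (hfin : FiniteAlong K α) (hN : NormFormulaAlong K α hfin)
    (hfin' : FiniteAlong K α') (hN' : NormFormulaAlong K α' hfin')
    (hnorm : ∀ f : F₂, (letI := algebraAlong α'; Algebra.norm F₁ (a' f))
      = a (letI := algebraAlong α; Algebra.norm F₀ f))
    (f : F₂) (hf : f ≠ 0) (D : Divisor K F₂) (hD : ∀ w, D w = w.ord f) :
    delta a α α' a' ha hα hα' ha' D = 0 := by
  ext w
  rw [delta_apply, Finsupp.sub_apply, Finsupp.zero_apply, sub_eq_zero,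
    Divisor.pullbackAlong_apply,
    pushforwardAlong_apply_of_normFormula α hα hfin hN f hf D hD,
    ← Place.ord_restrictAlong a ha w,
    pushforwardAlong_apply_of_normFormula α' hα' hfin' hN' (a' f)
      (by simpa using hf) (Divisor.pullbackAlong a' ha' D)
      (fun W => by rw [Divisor.pullbackAlong_apply, hD, ← Place.ord_restrictAlong a' ha' W]),
    hnorm f]

omit [HasPrincipalDivisors K F₂] in
/-- Locality of the defect: `δ [P]` is supported over the place of `F₀` under `P`. -/
theorem delta_single_apply_of_ne (hsq : α'.comp a = a'.comp α)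
    (P : Place K F₂) (n : ℤ) (w : Place K F₁)
    (hw : w.restrictAlong a ha ≠ P.restrictAlong α hα) :
    delta a α α' a' ha hα hα' ha' (Finsupp.single P n) w = 0 := by
  classical
  have hχ : (α'.comp a).toRingHom.IsIntegral := by
    have : (α'.comp a).toRingHom = α'.toRingHom.comp a.toRingHom := rfl
    rw [this]
    exact RingHom.IsIntegral.trans _ _ ha hα'
  have hχ' : (a'.comp α).toRingHom.IsIntegral := by
    have : (a'.comp α).toRingHom = a'.toRingHom.comp α.toRingHom := rfl
    rw [this]
    exact RingHom.IsIntegral.trans _ _ hα ha'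
  rw [delta_apply, Finsupp.sub_apply, Divisor.pullbackAlong_apply,
    Divisor.pushforwardAlong_single, Finsupp.single_eq_of_ne hw, mul_zero, zero_sub,
    neg_eq_zero, Divisor.pullbackAlong_single, map_sum, Finset.sum_apply']
  refine Finset.sum_eq_zero fun W hW => ?_
  rw [Divisor.pushforwardAlong_single]
  refine Finsupp.single_eq_of_ne ?_
  intro hWw
  apply hw
  have hWP : W.restrictAlong a' ha' = P := Place.mem_fiberAlong.mp hW
  rw [hWw, ← restrictAlong_comp a α' ha hα' hχ W,
    Place.restrictAlong_congr hsq hχ hχ' W, restrictAlong_comp α a' hα ha' hχ' W, hWP]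

omit [HasPrincipalDivisors K F₂] in
/-- Locality, for arbitrary divisors. -/
theorem delta_apply_of_forall_ne (hsq : α'.comp a = a'.comp α)
    (D : Divisor K F₂) (w : Place K F₁)
    (hw : ∀ P ∈ D.support, w.restrictAlong a ha ≠ P.restrictAlong α hα) :
    delta a α α' a' ha hα hα' ha' D w = 0 := by
  classical
  conv_lhs => rw [← Finsupp.sum_single D]
  rw [Finsupp.sum, map_sum, Finset.sum_apply']
  exact Finset.sum_eq_zero fun P hP =>
    delta_single_apply_of_ne a α α' a' ha hα hα' ha' hsq P (D P) w (hw P hP)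

/-- **Base change for divisors**: `a^* ∘ α_* = α'_* ∘ a'^*` for a commutative square
`α' ∘ a = a' ∘ α` of function fields such that norms are compatible
(`N_{α'}(a' f) = a (N_α f)`), given the norm formulas along `α`, `α'` and weak approximation
in `F₂`. -/
theorem delta_eq_zero (hsq : α'.comp a = a'.comp α)
    (hfin : FiniteAlong K α) (hN : NormFormulaAlong K α hfin)
    (hfin' : FiniteAlong K α') (hN' : NormFormulaAlong K α' hfin')
    (hnorm : ∀ f : F₂, (letI := algebraAlong α'; Algebra.norm F₁ (a' f))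
      = a (letI := algebraAlong α; Algebra.norm F₀ f))
    (hWA : ∀ (P : Place K F₂) (S : Finset (Place K F₂)), P ∉ S →
      ∃ f : F₂, f ≠ 0 ∧ P.ord f = 1 ∧ ∀ Q ∈ S, Q.ord f = 0) :
    delta a α α' a' ha hα hα' ha' = 0 := by
  classical
  have hone : ∀ P : Place K F₂, delta a α α' a' ha hα hα' ha' (Finsupp.single P 1) = 0 := by
    intro P
    ext w
    rw [Finsupp.zero_apply]
    by_cases hw : w.restrictAlong a ha = P.restrictAlong α hα
    · set S : Finset (Place K F₂) := (Place.fiberAlong α hα (P.restrictAlong α hα)).erase P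
        with hS
      obtain ⟨f, hf0, hfP, hfS⟩ := hWA P S (Finset.notMem_erase P _)
      obtain ⟨Df, hDf, -⟩ := HasPrincipalDivisors.exists_divisor (K := K) f hf0
      have hsplit : (Finsupp.single P 1 : Divisor K F₂) = Df - (Df - Finsupp.single P 1) := by
        abel
      rw [hsplit, map_sub,
        delta_principal a α α' a' ha hα hα' ha' hfin hN hfin' hN' hnorm f hf0 Df hDf,
        zero_sub, Finsupp.neg_apply, neg_eq_zero]
      refine delta_apply_of_forall_ne a α α' a' ha hα hα' ha' hsq _ w fun Q hQ hQw => ?_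
      rw [hw] at hQw
      rw [Finsupp.mem_support_iff, Finsupp.sub_apply] at hQ
      apply hQ
      by_cases hQP : Q = P
      · subst hQP
        rw [Finsupp.single_eq_same, hDf, hfP, sub_self]
      · have hQS : Q ∈ S := by
          rw [hS, Finset.mem_erase]
          exact ⟨hQP, Place.mem_fiberAlong.mpr hQw.symm⟩
        rw [Finsupp.single_eq_of_ne hQP, hDf, hfS Q hQS, sub_zero]
    · exact delta_single_apply_of_ne a α α' a' ha hα hα' ha' hsq P 1 w hw
  refine Finsupp.addHom_ext fun P n => ?_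
  have : (Finsupp.single P n : Divisor K F₂) = n • Finsupp.single P 1 := by
    rw [Finsupp.smul_single, smul_eq_mul, mul_one]
  rw [this, map_zsmul, hone P, smul_zero, AddMonoidHom.zero_apply]

/-- **Base change for divisors** (applied form). -/
theorem pullbackAlong_pushforwardAlong (hsq : α'.comp a = a'.comp α)
    (hfin : FiniteAlong K α) (hN : NormFormulaAlong K α hfin)
    (hfin' : FiniteAlong K α') (hN' : NormFormulaAlong K α' hfin')
    (hnorm : ∀ f : F₂, (letI := algebraAlong α'; Algebra.norm F₁ (a' f))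
      = a (letI := algebraAlong α; Algebra.norm F₀ f))
    (hWA : ∀ (P : Place K F₂) (S : Finset (Place K F₂)), P ∉ S →
      ∃ f : F₂, f ≠ 0 ∧ P.ord f = 1 ∧ ∀ Q ∈ S, Q.ord f = 0)
    (D : Divisor K F₂) :
    Divisor.pullbackAlong a ha (Divisor.pushforwardAlong α hα D)
      = Divisor.pushforwardAlong α' hα' (Divisor.pullbackAlong a' ha' D) := by
  have h := congrArg (fun δ : Divisor K F₂ →+ Divisor K F₁ => δ D)
    (delta_eq_zero a α α' a' ha hα hα' ha' hsq hfin hN hfin' hN' hnorm hWA)
  exact sub_eq_zero.mp h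

include ha' in
/-- **A correspondence commutes with pull-back along a compatible pair of squares**:
`a^* ∘ (α_* β^*) = (α'_* β'^*) ∘ a^*`. -/
theorem pullbackAlong_correspondence
    (β : F₀ →ₐ[K] F₂) (β' : F₁ →ₐ[K] F₃)
    (hβ : β.toRingHom.IsIntegral) (hβ' : β'.toRingHom.IsIntegral)
    (hsq : α'.comp a = a'.comp α) (hsqβ : β'.comp a = a'.comp β)
    (hfin : FiniteAlong K α) (hN : NormFormulaAlong K α hfin)
    (hfin' : FiniteAlong K α') (hN' : NormFormulaAlong K α' hfin')
    (hnorm : ∀ f : F₂, (letI := algebraAlong α'; Algebra.norm F₁ (a' f))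
      = a (letI := algebraAlong α; Algebra.norm F₀ f))
    (hWA : ∀ (P : Place K F₂) (S : Finset (Place K F₂)), P ∉ S →
      ∃ f : F₂, f ≠ 0 ∧ P.ord f = 1 ∧ ∀ Q ∈ S, Q.ord f = 0)
    (D : Divisor K F₀) :
    Divisor.pullbackAlong a ha (Divisor.correspondence β α hβ hα D)
      = Divisor.correspondence β' α' hβ' hα' (Divisor.pullbackAlong a ha D) := by
  have hχ : (β'.comp a).toRingHom.IsIntegral := by
    have : (β'.comp a).toRingHom = β'.toRingHom.comp a.toRingHom := rfl
    rw [this]
    exact RingHom.IsIntegral.trans _ _ ha hβ'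
  have hχ' : (a'.comp β).toRingHom.IsIntegral := by
    have : (a'.comp β).toRingHom = a'.toRingHom.comp β.toRingHom := rfl
    rw [this]
    exact RingHom.IsIntegral.trans _ _ hβ ha'
  rw [Divisor.correspondence_apply, Divisor.correspondence_apply,
    pullbackAlong_pushforwardAlong a α α' a' ha hα hα' ha' hsq hfin hN hfin' hN' hnorm hWA,
    ← pullbackAlong_comp β a' hβ ha' hχ', ← pullbackAlong_comp a β' ha hβ' hχ,
    pullbackAlong_congr hsqβ hχ hχ']

end BaseChange

end Fermat.Agent.ESJ.LevelDesc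

end
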