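import Mathlib
import Fermat.Agent.ESJ.LevelDesc.BaseChange
import Fermat.Agent.ESJ.Cong.Comm

/-!
# ESJ / LevelDesc — pull-back of divisor classes along an embedding of function fields

Abstract part (Prelude `Place`/`Divisor`/`Pic0`, "Along" API):

* `pic0Pull φ hφ hFI : Pic0 K F →+ Pic0 K F'`, the map induced by `Divisor.pullbackAlong φ`;
* `pushforwardAlong_pullbackAlong` : `φ_* φ^* D = [F' : φ F] • D` (sum of `e · f` over a fibre);
* `nsmul_eq_zero_of_pic0Pull_eq_zero` : the kernel of `pic0Pull` is killed by `[F' : φ F]`;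
* `pic0Pull_smul` : equivariance for a pair of intertwined semilinear automorphisms;
* `pic0Pull_correspondence` : `a^* ∘ (α_* β^*) = (α'_* β'^*) ∘ a^*` on `Pic0`.
-/

set_option autoImplicit false
set_option linter.style.haveILetI false

noncomputable section

namespace Fermat.Agent.ESJ.LevelDesc

open AlgebraicCurve

section Pull

variable {K F F' : Type*} [Field K] [Field F] [Field F'] [Algebra K F] [Algebra K F']
  [HasPrincipalDivisors K F']
  (φ : F →ₐ[K] F') (hφ : φ.toRingHom.IsIntegral)

/-- Pull-back on degree-zero divisors. -/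
def pullDegZero (hFI : FundamentalIdentityAlong K φ hφ) :
    Divisor.degZero (K := K) (F := F) →+ Divisor.degZero (K := K) (F := F') :=
  ((Divisor.pullbackAlong φ hφ).domRestrict (Divisor.degZero (K := K) (F := F))).codRestrict _
    fun D => Divisor.pullbackAlong_mem_degZero φ hφ hFI D.2

@[simp]
theorem coe_pullDegZero (hFI : FundamentalIdentityAlong K φ hφ)
    (D : Divisor.degZero (K := K) (F := F)) :
    (pullDegZero φ hφ hFI D : Divisor K F') = Divisor.pullbackAlong φ hφ (D : Divisor K F) :=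
  rfl

/-- Pull-back of divisor classes along `φ`. -/
def pic0Pull (hFI : FundamentalIdentityAlong K φ hφ) : Pic0 K F →+ Pic0 K F' :=
  QuotientAddGroup.map _ _ (pullDegZero φ hφ hFI) (by
    rintro ⟨D, hD0⟩ hD
    simp only [AddSubgroup.mem_addSubgroupOf] at hD ⊢
    exact Divisor.isPrincipal_pullbackAlong φ hφ hD)

theorem pic0Pull_mk (hFI : FundamentalIdentityAlong K φ hφ)
    (D : Divisor.degZero (K := K) (F := F)) :
    pic0Pull φ hφ hFI (Pic0.mk D) = Pic0.mk (pullDegZero φ hφ hFI D) :=
  rfl

omit [HasPrincipalDivisors K F'] in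
theorem pic0_mk_eq_zero_iff (D : Divisor.degZero (K := K) (F := F)) :
    Pic0.mk D = 0 ↔ (D : Divisor K F) ∈ Divisor.principal (K := K) (F := F) := by
  rw [Pic0.mk, QuotientAddGroup.eq_zero_iff, AddSubgroup.mem_addSubgroupOf]

/-- The sum of `e · f` over a fibre is the degree (the hypothesis of the next lemmas). -/
def SumRamInertiaAlong : Prop :=
  letI := algebraAlong φ
  haveI := isScalarTower_along φ
  haveI := isIntegral_along φ hφ
  SumRamificationInertia K F F'

/-- `φ_* φ^* D = [F' : φ F] • D`. -/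
theorem pushforwardAlong_pullbackAlong (hS : SumRamInertiaAlong φ hφ) (D : Divisor K F) :
    Divisor.pushforwardAlong φ hφ (Divisor.pullbackAlong φ hφ D)
      = (finrankAlong K φ : ℤ) • D := by
  letI := algebraAlong φ
  haveI := isScalarTower_along φ
  haveI := isIntegral_along φ hφ
  haveI : SumRamificationInertia K F F' := hS
  show Divisor.pushforward F (Divisor.pullback F' D) = (Module.finrank F F' : ℤ) • D
  induction D using Finsupp.induction_linear with
  | zero => rw [map_zero, map_zero, smul_zero]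
  | add D E hD hE => rw [map_add, map_add, hD, hE, smul_add]
  | single v n =>
    rw [Divisor.pullback_single, map_sum]
    have h1 : ∀ w ∈ v.fiber F',
        Divisor.pushforward F (Finsupp.single w (n * (w.ramificationIndex F : ℤ)))
          = Finsupp.single v (n * ((w.ramificationIndex F : ℤ) * (w.inertiaDeg F : ℤ))) := by
      intro w hw
      rw [Divisor.pushforward_single, Place.mem_fiber.mp hw, mul_assoc]
    rw [Finset.sum_congr rfl h1, ← Finsupp.single_finsetSum, ← Finset.mul_sum,
      SumRamificationInertia.sum_ramificationIndex_mul_inertiaDeg (K := K) (F := F) (F' := F') v,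
      Finsupp.smul_single, smul_eq_mul, mul_comm]

/-- The kernel of the pull-back of divisor classes is killed by the degree. -/
theorem nsmul_eq_zero_of_pic0Pull_eq_zero (hFI : FundamentalIdentityAlong K φ hφ)
    (hfin : FiniteAlong K φ) (hN : NormFormulaAlong K φ hfin) (hS : SumRamInertiaAlong φ hφ)
    (x : Pic0 K F) (hx : pic0Pull φ hφ hFI x = 0) : finrankAlong K φ • x = 0 := by
  obtain ⟨D, rfl⟩ := Pic0.mk_surjective x
  rw [pic0Pull_mk, pic0_mk_eq_zero_iff, coe_pullDegZero] at hx
  have h1 := Divisor.isPrincipal_pushforwardAlong φ hφ hfin hN hx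
  rw [pushforwardAlong_pullbackAlong φ hφ hS] at h1
  have h2 : finrankAlong K φ • Pic0.mk D = Pic0.mk (finrankAlong K φ • D) := rfl
  rw [h2, pic0_mk_eq_zero_iff]
  have h3 : ((finrankAlong K φ • D : Divisor.degZero (K := K) (F := F)) : Divisor K F)
      = (finrankAlong K φ : ℤ) • (D : Divisor K F) := by
    rw [AddSubgroup.coe_nsmul, natCast_zsmul]
  rw [h3]
  exact h1

/-- Pull-back of divisor classes is equivariant for intertwined semilinear automorphisms. -/
theorem pic0Pull_smul (hFI : FundamentalIdentityAlong K φ hφ)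
    {g : SemilinearAut K F} {g' : SemilinearAut K F'}
    (h : SemilinearAut.IntertwinesAlong (φ : F →+* F') g g') (x : Pic0 K F) :
    pic0Pull φ hφ hFI (g • x) = g' • pic0Pull φ hφ hFI x := by
  obtain ⟨D, rfl⟩ := Pic0.mk_surjective x
  rw [SemilinearAut.pic0_smul_mk, pic0Pull_mk, pic0Pull_mk, SemilinearAut.pic0_smul_mk]
  refine congrArg Pic0.mk (Subtype.ext ?_)
  rw [coe_pullDegZero, SemilinearAut.coe_degZeroSMulHom, SemilinearAut.coe_degZeroSMulHom,
    coe_pullDegZero]
  exact Fermat.Agent.ESJ.Cong.comm_pullbackAlong φ hφ h (D : Divisor K F)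

end Pull

section Correspondence

variable {K F₀ F₁ F₂ F₃ : Type*} [Field K] [Field F₀] [Field F₁] [Field F₂] [Field F₃]
  [Algebra K F₀] [Algebra K F₁] [Algebra K F₂] [Algebra K F₃]
  [HasPrincipalDivisors K F₁] [HasPrincipalDivisors K F₂] [HasPrincipalDivisors K F₃]

/-- **Pull-back of divisor classes commutes with correspondences**:
`a^* ∘ (α_* β^*) = (α'_* β'^*) ∘ a^*` on `Pic0`, for commutative squares `α' ∘ a = a' ∘ α`,
`β' ∘ a = a' ∘ β` with compatible norms. -/
theorem pic0Pull_correspondence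
    (a : F₀ →ₐ[K] F₁) (α β : F₀ →ₐ[K] F₂) (α' β' : F₁ →ₐ[K] F₃) (a' : F₂ →ₐ[K] F₃)
    (ha : a.toRingHom.IsIntegral) (hα : α.toRingHom.IsIntegral) (hβ : β.toRingHom.IsIntegral)
    (hα' : α'.toRingHom.IsIntegral) (hβ' : β'.toRingHom.IsIntegral)
    (ha' : a'.toRingHom.IsIntegral)
    (hFIa : FundamentalIdentityAlong K a ha)
    (hFI : FundamentalIdentityAlong K β hβ) (hfin : FiniteAlong K α)
    (hN : NormFormulaAlong K α hfin)
    (hFI' : FundamentalIdentityAlong K β' hβ') (hfin' : FiniteAlong K α')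
    (hN' : NormFormulaAlong K α' hfin')
    (hsq : α'.comp a = a'.comp α) (hsqβ : β'.comp a = a'.comp β)
    (hnorm : ∀ f : F₂, (letI := algebraAlong α'; Algebra.norm F₁ (a' f))
      = a (letI := algebraAlong α; Algebra.norm F₀ f))
    (hWA : ∀ (P : Place K F₂) (S : Finset (Place K F₂)), P ∉ S →
      ∃ f : F₂, f ≠ 0 ∧ P.ord f = 1 ∧ ∀ Q ∈ S, Q.ord f = 0)
    (x : Pic0 K F₀) :
    pic0Pull a ha hFIa (Pic0.correspondence β α hβ hα hFI hfin hN x)
      = Pic0.correspondence β' α' hβ' hα' hFI' hfin' hN' (pic0Pull a ha hFIa x) := by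
  obtain ⟨D, rfl⟩ := Pic0.mk_surjective x
  rw [Pic0.correspondence_mk, pic0Pull_mk, pic0Pull_mk, Pic0.correspondence_mk]
  refine congrArg Pic0.mk (Subtype.ext ?_)
  rw [coe_pullDegZero, Pic0.coe_degZeroCorrespondence, Pic0.coe_degZeroCorrespondence,
    coe_pullDegZero]
  exact pullbackAlong_correspondence a α α' a' ha hα hα' ha' β β' hβ hβ' hsq hsqβ hfin hN
    hfin' hN' hnorm hWA (D : Divisor K F₀)

end Correspondence

end Fermat.Agent.ESJ.LevelDesc

end
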