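import Mathlib
import Fermat.Agent.ESJ.LevelDesc.BaseChange
import Fermat.Agent.ESJ.Cong.Comm

/-!
# ESJ / LevelDesc — push-forward of divisor classes along an embedding of function fields

Abstract part (Prelude `Place`/`Divisor`/`Pic0`, "Along" API), for function fields all of whose
places have degree one:

* `pushforwardAlong_single_of_deg`, `pushforwardAlong_comp`, `pushforwardAlong_congr`:
  functoriality of the push-forward of divisors;
* `pushforwardAlong_correspondence` : `a_* ∘ (α'_* β'^*) = (α_* β^*) ∘ a_*` on divisors, for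
  commutative squares `α' ∘ a = a' ∘ α`, `β' ∘ a = a' ∘ β` with base change in the `β`-square;
* `pic0Push φ hφ hfin hN : Pic0 K F' →+ Pic0 K F`, the map induced by
  `Divisor.pushforwardAlong φ`; `pic0Push_smul` (equivariance), `pic0Push_correspondence`.
-/

set_option autoImplicit false
set_option linter.style.haveILetI false

noncomputable section

namespace Fermat.Agent.ESJ.LevelDesc

open AlgebraicCurve

section PushFunctoriality

variable {K F F' F'' : Type*} [Field K] [Field F] [Field F'] [Field F'']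
  [Algebra K F] [Algebra K F'] [Algebra K F'']

/-- If all places upstairs have degree one, all inertia degrees are one. -/
theorem inertiaDegAlong_eq_one (φ : F →ₐ[K] F') (hφ : φ.toRingHom.IsIntegral)
    (hdeg' : ∀ w : Place K F', w.deg = 1) (w : Place K F') :
    w.inertiaDegAlong φ hφ = 1 := by
  letI := algebraAlong φ
  haveI := isScalarTower_along φ
  haveI := isIntegral_along φ hφ
  have h := w.deg_restrict_mul_inertiaDeg (F := F)
  rw [hdeg' w] at h
  exact Nat.eq_one_of_mul_eq_one_left h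

theorem pushforwardAlong_single_of_deg (φ : F →ₐ[K] F') (hφ : φ.toRingHom.IsIntegral)
    (hdeg' : ∀ w : Place K F', w.deg = 1) (w : Place K F') (n : ℤ) :
    Divisor.pushforwardAlong φ hφ (Finsupp.single w n)
      = Finsupp.single (w.restrictAlong φ hφ) n := by
  rw [Divisor.pushforwardAlong_single, inertiaDegAlong_eq_one φ hφ hdeg' w, Nat.cast_one,
    mul_one]

/-- Functoriality of the push-forward of divisors. -/
theorem pushforwardAlong_comp (φ : F →ₐ[K] F') (ψ : F' →ₐ[K] F'')
    (hφ : φ.toRingHom.IsIntegral) (hψ : ψ.toRingHom.IsIntegral)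
    (hχ : (ψ.comp φ).toRingHom.IsIntegral)
    (hdeg' : ∀ w : Place K F', w.deg = 1) (hdeg'' : ∀ w : Place K F'', w.deg = 1)
    (D : Divisor K F'') :
    Divisor.pushforwardAlong (ψ.comp φ) hχ D
      = Divisor.pushforwardAlong φ hφ (Divisor.pushforwardAlong ψ hψ D) := by
  induction D using Finsupp.induction_linear with
  | zero => rw [map_zero, map_zero, map_zero]
  | add D E hD hE => rw [map_add, map_add, map_add, hD, hE]
  | single w n =>
    rw [pushforwardAlong_single_of_deg (ψ.comp φ) hχ hdeg'' w n,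
      pushforwardAlong_single_of_deg ψ hψ hdeg'' w n,
      pushforwardAlong_single_of_deg φ hφ hdeg' _ n,
      restrictAlong_comp φ ψ hφ hψ hχ w]

theorem pushforwardAlong_congr {χ χ' : F →ₐ[K] F''} (h : χ = χ')
    (hχ : χ.toRingHom.IsIntegral) (hχ' : χ'.toRingHom.IsIntegral) (D : Divisor K F'') :
    Divisor.pushforwardAlong χ hχ D = Divisor.pushforwardAlong χ' hχ' D := by
  subst h
  rfl

end PushFunctoriality

section PushCorrespondence

variable {K F₀ F₁ F₂ F₃ : Type*} [Field K] [Field F₀] [Field F₁] [Field F₂] [Field F₃]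
  [Algebra K F₀] [Algebra K F₁] [Algebra K F₂] [Algebra K F₃]
  [HasPrincipalDivisors K F₁] [HasPrincipalDivisors K F₂] [HasPrincipalDivisors K F₃]

/-- **A correspondence commutes with push-forward along a compatible pair of squares**:
`a_* ∘ (α'_* β'^*) = (α_* β^*) ∘ a_*`, given base change in the square `β' ∘ a = a' ∘ β`. -/
theorem pushforwardAlong_correspondence
    (a : F₀ →ₐ[K] F₁) (α β : F₀ →ₐ[K] F₂) (α' β' : F₁ →ₐ[K] F₃) (a' : F₂ →ₐ[K] F₃)
    (ha : a.toRingHom.IsIntegral) (hα : α.toRingHom.IsIntegral) (hβ : β.toRingHom.IsIntegral)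
    (hα' : α'.toRingHom.IsIntegral) (hβ' : β'.toRingHom.IsIntegral)
    (ha' : a'.toRingHom.IsIntegral)
    (hsq : α'.comp a = a'.comp α) (hsqβ : β'.comp a = a'.comp β)
    (hfin : FiniteAlong K a) (hN : NormFormulaAlong K a hfin)
    (hfin' : FiniteAlong K a') (hN' : NormFormulaAlong K a' hfin')
    (hnorm : ∀ f : F₁, (letI := algebraAlong a'; Algebra.norm F₂ (β' f))
      = β (letI := algebraAlong a; Algebra.norm F₀ f))
    (hWA : ∀ (P : Place K F₁) (S : Finset (Place K F₁)), P ∉ S →
      ∃ f : F₁, f ≠ 0 ∧ P.ord f = 1 ∧ ∀ Q ∈ S, Q.ord f = 0)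
    (hdeg₁ : ∀ w : Place K F₁, w.deg = 1) (hdeg₂ : ∀ w : Place K F₂, w.deg = 1)
    (hdeg₃ : ∀ w : Place K F₃, w.deg = 1)
    (D : Divisor K F₁) :
    Divisor.pushforwardAlong a ha (Divisor.correspondence β' α' hβ' hα' D)
      = Divisor.correspondence β α hβ hα (Divisor.pushforwardAlong a ha D) := by
  have hχ : (α'.comp a).toRingHom.IsIntegral := by
    have : (α'.comp a).toRingHom = α'.toRingHom.comp a.toRingHom := rfl
    rw [this]
    exact RingHom.IsIntegral.trans _ _ ha hα'
  have hχ' : (a'.comp α).toRingHom.IsIntegral := by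
    have : (a'.comp α).toRingHom = a'.toRingHom.comp α.toRingHom := rfl
    rw [this]
    exact RingHom.IsIntegral.trans _ _ hα ha'
  rw [Divisor.correspondence_apply, Divisor.correspondence_apply,
    ← pushforwardAlong_comp a α' ha hα' hχ hdeg₁ hdeg₃,
    pushforwardAlong_congr hsq hχ hχ',
    pushforwardAlong_comp α a' hα ha' hχ' hdeg₂ hdeg₃,
    pullbackAlong_pushforwardAlong β a a' β' hβ ha ha' hβ' hsqβ.symm hfin hN hfin' hN' hnorm
      hWA]

end PushCorrespondence

section Push

variable {K F F' : Type*} [Field K] [Field F] [Field F'] [Algebra K F] [Algebra K F']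
  (φ : F →ₐ[K] F') (hφ : φ.toRingHom.IsIntegral)

/-- Push-forward on degree-zero divisors. -/
def pushDegZero :
    Divisor.degZero (K := K) (F := F') →+ Divisor.degZero (K := K) (F := F) :=
  ((Divisor.pushforwardAlong φ hφ).domRestrict
    (Divisor.degZero (K := K) (F := F'))).codRestrict _
    fun D => Divisor.pushforwardAlong_mem_degZero φ hφ D.2

@[simp]
theorem coe_pushDegZero (D : Divisor.degZero (K := K) (F := F')) :
    (pushDegZero φ hφ D : Divisor K F) = Divisor.pushforwardAlong φ hφ (D : Divisor K F') :=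
  rfl

/-- Push-forward of divisor classes along `φ`. -/
def pic0Push (hfin : FiniteAlong K φ) (hN : NormFormulaAlong K φ hfin) :
    Pic0 K F' →+ Pic0 K F :=
  QuotientAddGroup.map _ _ (pushDegZero φ hφ) (by
    rintro ⟨D, hD0⟩ hD
    simp only [AddSubgroup.mem_addSubgroupOf] at hD ⊢
    exact Divisor.isPrincipal_pushforwardAlong φ hφ hfin hN hD)

theorem pic0Push_mk (hfin : FiniteAlong K φ) (hN : NormFormulaAlong K φ hfin)
    (D : Divisor.degZero (K := K) (F := F')) :
    pic0Push φ hφ hfin hN (Pic0.mk D) = Pic0.mk (pushDegZero φ hφ D) :=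
  rfl

/-- Push-forward of divisor classes is equivariant for intertwined semilinear automorphisms. -/
theorem pic0Push_smul (hfin : FiniteAlong K φ) (hN : NormFormulaAlong K φ hfin)
    {g : SemilinearAut K F} {g' : SemilinearAut K F'}
    (h : SemilinearAut.IntertwinesAlong (φ : F →+* F') g g') (x : Pic0 K F') :
    pic0Push φ hφ hfin hN (g' • x) = g • pic0Push φ hφ hfin hN x := by
  obtain ⟨D, rfl⟩ := Pic0.mk_surjective x
  rw [SemilinearAut.pic0_smul_mk, pic0Push_mk, pic0Push_mk, SemilinearAut.pic0_smul_mk]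
  refine congrArg Pic0.mk (Subtype.ext ?_)
  rw [coe_pushDegZero, SemilinearAut.coe_degZeroSMulHom, SemilinearAut.coe_degZeroSMulHom,
    coe_pushDegZero]
  exact Fermat.Agent.ESJ.Cong.comm_pushforwardAlong φ hφ h (D : Divisor K F')

end Push

section Pic0Correspondence

variable {K F₀ F₁ F₂ F₃ : Type*} [Field K] [Field F₀] [Field F₁] [Field F₂] [Field F₃]
  [Algebra K F₀] [Algebra K F₁] [Algebra K F₂] [Algebra K F₃]
  [HasPrincipalDivisors K F₁] [HasPrincipalDivisors K F₂] [HasPrincipalDivisors K F₃]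

/-- **Push-forward of divisor classes commutes with correspondences**:
`a_* ∘ (α'_* β'^*) = (α_* β^*) ∘ a_*` on `Pic0`. -/
theorem pic0Push_correspondence
    (a : F₀ →ₐ[K] F₁) (α β : F₀ →ₐ[K] F₂) (α' β' : F₁ →ₐ[K] F₃) (a' : F₂ →ₐ[K] F₃)
    (ha : a.toRingHom.IsIntegral) (hα : α.toRingHom.IsIntegral) (hβ : β.toRingHom.IsIntegral)
    (hα' : α'.toRingHom.IsIntegral) (hβ' : β'.toRingHom.IsIntegral)
    (ha' : a'.toRingHom.IsIntegral)
    (hFI : FundamentalIdentityAlong K β hβ) (hfinα : FiniteAlong K α)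
    (hNα : NormFormulaAlong K α hfinα)
    (hFI' : FundamentalIdentityAlong K β' hβ') (hfinα' : FiniteAlong K α')
    (hNα' : NormFormulaAlong K α' hfinα')
    (hsq : α'.comp a = a'.comp α) (hsqβ : β'.comp a = a'.comp β)
    (hfin : FiniteAlong K a) (hN : NormFormulaAlong K a hfin)
    (hfin' : FiniteAlong K a') (hN' : NormFormulaAlong K a' hfin')
    (hnorm : ∀ f : F₁, (letI := algebraAlong a'; Algebra.norm F₂ (β' f))
      = β (letI := algebraAlong a; Algebra.norm F₀ f))
    (hWA : ∀ (P : Place K F₁) (S : Finset (Place K F₁)), P ∉ S →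
      ∃ f : F₁, f ≠ 0 ∧ P.ord f = 1 ∧ ∀ Q ∈ S, Q.ord f = 0)
    (hdeg₁ : ∀ w : Place K F₁, w.deg = 1) (hdeg₂ : ∀ w : Place K F₂, w.deg = 1)
    (hdeg₃ : ∀ w : Place K F₃, w.deg = 1)
    (x : Pic0 K F₁) :
    pic0Push a ha hfin hN (Pic0.correspondence β' α' hβ' hα' hFI' hfinα' hNα' x)
      = Pic0.correspondence β α hβ hα hFI hfinα hNα (pic0Push a ha hfin hN x) := by
  obtain ⟨D, rfl⟩ := Pic0.mk_surjective x
  rw [Pic0.correspondence_mk, pic0Push_mk, pic0Push_mk, Pic0.correspondence_mk]
  refine congrArg Pic0.mk (Subtype.ext ?_)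
  rw [coe_pushDegZero, Pic0.coe_degZeroCorrespondence, Pic0.coe_degZeroCorrespondence,
    coe_pushDegZero]
  exact pushforwardAlong_correspondence a α β α' β' a' ha hα hβ hα' hβ' ha' hsq hsqβ hfin hN
    hfin' hN' hnorm hWA hdeg₁ hdeg₂ hdeg₃ (D : Divisor K F₁)

end Pic0Correspondence

end Fermat.Agent.ESJ.LevelDesc

end
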